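/-
helper38 (P-ES1 / ES1-C-PER-B3, row 731): the transfer formula for the period map of
`S₂(Γ₁(M))` (`Fermat.Agent.H21.Es1C.PeriodTransfer1Statement`), port of
`Fermat.Agent.H57.periodMap_transfer` WITHOUT the hypothesis at `i∞`:
`∑ x, F ∘ α x` is a primitive of `f'`, hence differs from the decaying primitive by a constant,
which the periods do not see.
-/
import Fermat.Agent.H21.Es1C.Interfaces
import Fermat.Agent.H57.HeckePeriod
import Fermat.Agent.H31.PeriodBasic

set_option autoImplicit false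

namespace Fermat.Agent.H38.Es1C

open UpperHalfPlane CongruenceSubgroup Filter Topology ModularCurve ModularCurve.Period
open Matrix.SpecialLinearGroup
open scoped MatrixGroups ModularForm
open Fermat.Agent.H21.Es1C

/-- **Apply formula for `periodMap1`**: for any decaying equivariant primitive `F` of `f` and any
base point `z`, `periodMap1 M f γ = F (γ • z) - F z`. -/
theorem periodMap1_apply {M : ℕ} {f : CuspForm (Gamma1 M) 2} {F : ℍ → ℂ}
    (hF : HasEqPrim1 M f F) (γ : ↥(G1 M)) (z : ℍ) :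
    periodMap1 M f (Additive.ofMul γ) = F ((γ : SL(2, ℤ)) • z) - F z := by
  have hex : ∃ F : ℍ → ℂ, HasEqPrim1 M f F := ⟨F, hF⟩
  have huniq : hex.choose = F :=
    Fermat.Agent.H31.primitive_unique hex.choose_spec.1 hF.1 hex.choose_spec.2.1 hF.2.1
  unfold periodMap1
  rw [dif_pos hex, IsEquivariantPrimitive.periodHom_apply,
    ← IsEquivariantPrimitive.sub_eq_period _ γ z, huniq]

/-- **PER1-B (3)**: the transfer formula for the period map of `S₂(Γ₁(M))`. -/
theorem periodTransfer1 (hA : ExistsPrimitive1Statement) : PeriodTransfer1Statement := by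
  intro M _ X _ α hdet f f' hf' γ σ κ h
  obtain ⟨F, hF⟩ := hA M f
  obtain ⟨G₀, hG₀⟩ := hA M f'
  -- the candidate primitive
  set G : ℍ → ℂ := fun w => ∑ x, F (α x • w) with hG
  have hGder : ∀ τ : ℍ, HasDerivAt (G ∘ ofComplex) (f' τ) ↑τ := by
    intro τ
    have h1 : ∀ x ∈ (Finset.univ : Finset X),
        HasDerivAt ((fun w : ℍ => F (α x • w)) ∘ ofComplex)
          (((f : ℍ → ℂ) ∣[(2 : ℤ)] α x) τ) ↑τ := fun x _ =>
      Fermat.Agent.H57.hp_hasDerivAt_comp_smul F f hF.1 (hdet x) τ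
    have h2 := HasDerivAt.fun_sum h1
    rw [hf' τ]
    refine h2.congr_of_eventuallyEq ?_
    exact Filter.Eventually.of_forall fun z => by
      simp only [hG, Function.comp_apply]
  -- `G - G₀` is constant
  have hD : ∀ τ : ℍ, HasDerivAt ((fun z => G z - G₀ z) ∘ ofComplex) 0 (τ : ℂ) := by
    intro τ
    have := (hGder τ).fun_sub (hG₀.1 τ)
    simpa [Function.comp_def] using this
  have hconst := Fermat.Agent.H31.const_of_hasDerivAt_zero hD
    ((γ : SL(2, ℤ)) • UpperHalfPlane.I) UpperHalfPlane.I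
  have e : G₀ ((γ : SL(2, ℤ)) • UpperHalfPlane.I) - G₀ UpperHalfPlane.I
      = G ((γ : SL(2, ℤ)) • UpperHalfPlane.I) - G UpperHalfPlane.I := by
    linear_combination -hconst
  rw [periodMap1_apply hG₀ γ UpperHalfPlane.I, e]
  have hstep : ∀ x, F (α x • ((γ : SL(2, ℤ)) • UpperHalfPlane.I))
      = F (α (σ x) • UpperHalfPlane.I) + periodMap1 M f (Additive.ofMul (κ x)) := by
    intro x
    have e1 : α x • ((γ : SL(2, ℤ)) • UpperHalfPlane.I)
        = ((κ x : ↥(G1 M)) : SL(2, ℤ)) • (α (σ x) • UpperHalfPlane.I) := by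
      show α x • (mapGL ℝ (γ : SL(2, ℤ)) • UpperHalfPlane.I)
        = mapGL ℝ ((κ x : ↥(G1 M)) : SL(2, ℤ)) • (α (σ x) • UpperHalfPlane.I)
      rw [← mul_smul, ← mul_smul, h x]
    rw [e1, periodMap1_apply hF (κ x) (α (σ x) • UpperHalfPlane.I)]
    ring
  simp only [hG]
  rw [Finset.sum_congr rfl fun x _ => hstep x, Finset.sum_add_distrib,
    Equiv.sum_comp σ (fun x => F (α x • UpperHalfPlane.I))]
  ring

end Fermat.Agent.H38.Es1C
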